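import Mathlib.Data.Matrix.Mul
import Mathlib.LinearAlgebra.Matrix.Determinant.Basic
import Mathlib.NumberTheory.Transcendental.Liouville.LiouvilleWith
import Mathlib.Analysis.SpecificLimits.Normed
import Mathlib.Tactic

/-!
# The continued fractions of Kempner's numbers

With `M` the matrix of the convergents of a word and `J = !![1, -1; 1, 0]`, `M J Mᵀ` belongs to the
word folded at its end, and takes the last convergent `p / q` to `(p q + 1) / q ²` (Shallit 1979).
So the sums `∑_{i ≤ k} b ^ (-2 ^ i)` have partial quotients in `[b - 2, b + 2]` for `b ≥ 3`.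
-/

set_option autoImplicit false

noncomputable section

open Matrix Filter
open scoped Topology

namespace FA.KempnerFraction

/-- The matrix of a partial quotient. -/
def quotMat (a : ℕ) : Matrix (Fin 2) (Fin 2) ℤ := !![(a : ℤ), 1; 1, 0]

/-- The matrix `!![q, q'; p, p']` of the last two convergents of a word. -/
def wordMat (l : List ℕ) : Matrix (Fin 2) (Fin 2) ℤ := (l.map quotMat).prod

theorem wordMat_append (l m : List ℕ) : wordMat (l ++ m) = wordMat l * wordMat m := by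
  simp [wordMat, List.map_append, List.prod_append]

theorem wordMat_singleton (a : ℕ) : wordMat [a] = quotMat a := by simp [wordMat]

theorem transpose_wordMat (l : List ℕ) : (wordMat l)ᵀ = wordMat l.reverse := by
  induction l with
  | nil => simp [wordMat]
  | cons a l ih =>
    rw [List.reverse_cons, wordMat_append, wordMat_singleton, ← ih, ← List.singleton_append,
      wordMat_append, wordMat_singleton, transpose_mul]
    congr 1
    ext i j
    fin_cases i <;> fin_cases j <;> simp [quotMat]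

theorem det_wordMat (l : List ℕ) : (wordMat l).det = (-1) ^ l.length := by
  induction l with
  | nil => simp [wordMat]
  | cons a l ih =>
    rw [← List.singleton_append, wordMat_append, det_mul, ih, wordMat_singleton, quotMat,
      det_fin_two_of, List.singleton_append, List.length_cons, pow_succ']
    ring

theorem first_column : ∀ {l : List ℕ}, (∀ a ∈ l, 1 ≤ a) →
    1 ≤ wordMat l 0 0 ∧ 0 ≤ wordMat l 1 0 ∧ wordMat l 1 0 ≤ wordMat l 0 0 := by
  intro l
  induction l with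
  | nil => intro _; simp [wordMat]
  | cons a l ih =>
    intro h
    obtain ⟨h1, h2, -⟩ := ih fun x hx => h x (List.mem_cons_of_mem _ hx)
    have ha : (1 : ℤ) ≤ a := by exact_mod_cast h a (List.mem_cons_self ..)
    rw [← List.singleton_append, wordMat_append, wordMat_singleton]
    simp only [mul_apply, Fin.sum_univ_two, quotMat, of_apply, cons_val', cons_val_zero,
      cons_val_one, cons_val_fin_one, empty_val']
    refine ⟨?_, ?_, ?_⟩ <;> nlinarith

theorem first_row {l : List ℕ} (h : ∀ a ∈ l, 1 ≤ a) :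
    0 ≤ wordMat l 0 1 ∧ wordMat l 0 1 ≤ wordMat l 0 0 := by
  have h' := (first_column (l := l.reverse) fun a ha => h a (List.mem_reverse.1 ha)).2
  rwa [← transpose_wordMat] at h'

/-- The denominators grow slowly. -/
theorem denom_append_le {l : List ℕ} (h : ∀ a ∈ l, 1 ≤ a) {a B : ℕ} (ha : a ≤ B) :
    wordMat (l ++ [a]) 0 0 ≤ (B + 1) * wordMat l 0 0 := by
  have h0 := (first_column h).1
  have h1 := (first_row h).2
  have : (a : ℤ) ≤ B := Int.ofNat_le.2 ha
  rw [wordMat_append, wordMat_singleton]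
  simp only [mul_apply, Fin.sum_univ_two, quotMat, of_apply, cons_val', cons_val_zero,
    cons_val_one, cons_val_fin_one, empty_val']
  nlinarith

/-- A value is within `1 / q ^ 2` of the convergents of its prefixes. -/
theorem abs_sub_prefix_le {l m : List ℕ} (hl : ∀ a ∈ l, 1 ≤ a) (hm : ∀ a ∈ m, 1 ≤ a) :
    |(wordMat (l ++ m) 1 0 : ℝ) / wordMat (l ++ m) 0 0 - wordMat l 1 0 / wordMat l 0 0| ≤
      1 / (wordMat l 0 0 : ℝ) ^ 2 := by
  obtain ⟨hu, hw, hwu⟩ := first_column hm
  obtain ⟨hq, -, -⟩ := first_column hl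
  obtain ⟨hq', -⟩ := first_row hl
  have hdet := det_wordMat l
  rw [det_fin_two] at hdet
  rw [wordMat_append]
  simp only [mul_apply, Fin.sum_univ_two]
  generalize wordMat m 0 0 = u, wordMat m 1 0 = w at hu hw hwu ⊢
  generalize wordMat l 0 0 = q, wordMat l 0 1 = q', wordMat l 1 0 = p, wordMat l 1 1 = p'
    at hq hq' hdet ⊢
  push_cast
  have hQ : (1 : ℝ) ≤ q := by exact_mod_cast hq
  have hU : (1 : ℝ) ≤ u := by exact_mod_cast hu
  have hW : (0 : ℝ) ≤ w := by exact_mod_cast hw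
  have hWU : (w : ℝ) ≤ u := by exact_mod_cast hwu
  have hQ' : (0 : ℝ) ≤ q' := by exact_mod_cast hq'
  have hden : 0 < (q : ℝ) * u + q' * w := by nlinarith
  have hd : |(q : ℝ) * p' - q' * p| = 1 := by
    have h : |q * p' - q' * p| = 1 := by rw [hdet, abs_neg_one_pow]
    exact_mod_cast h
  rw [div_sub_div _ _ hden.ne' (by positivity), abs_div,
    show ((p : ℝ) * u + p' * w) * q - ((q : ℝ) * u + q' * w) * p =
      ((q : ℝ) * p' - q' * p) * w by ring, abs_mul, hd, one_mul, abs_of_nonneg hW,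
    abs_of_pos (mul_pos hden (by linarith)), div_le_div_iff₀ (mul_pos hden (by linarith))
      (by positivity)]
  nlinarith [mul_le_mul_of_nonneg_left hWU (sq_nonneg (q : ℝ)),
    mul_nonneg (mul_nonneg hQ' hW) (zero_le_one.trans hQ)]

/-- **Long words of bounded quotients near `x` make it badly approximable.** -/
theorem badlyApproximable_of_words {x : ℝ} {B : ℕ}
    (h : ∀ N : ℕ, ∀ ε : ℝ, 0 < ε → ∃ l : List ℕ, (∀ a ∈ l, 1 ≤ a ∧ a ≤ B) ∧
      (N : ℤ) ≤ wordMat l 0 0 ∧ |x - (wordMat l 1 0 : ℝ) / wordMat l 0 0| ≤ ε)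
    (p : ℤ) {q : ℕ} (hq : 0 < q) :
    1 / (9 * ((B : ℝ) + 1)) / (q : ℝ) ^ 2 ≤ |x - p / q| := by
  classical
  have hqR : (0 : ℝ) < q := Nat.cast_pos.2 hq
  obtain ⟨l, hl, hN, hx⟩ :=
    h (3 * q) (1 / (9 * ((B : ℝ) + 1)) / (q : ℝ) ^ 2) (by positivity)
  have hex : ∃ j, 3 * (q : ℤ) ≤ wordMat (l.take j) 0 0 :=
    ⟨l.length, by rw [List.take_length]; exact_mod_cast hN⟩
  have hpos : ∀ j, ∀ a ∈ l.take j, 1 ≤ a := fun j a ha => (hl a (List.mem_of_mem_take ha)).1
  set j := Nat.find hex with hj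
  have hj1 : 3 * (q : ℤ) ≤ wordMat (l.take j) 0 0 := Nat.find_spec hex
  have hle : wordMat (l.take j) 0 0 ≤ 3 * ((B : ℤ) + 1) * q := by
    have hjl : j ≤ l.length := Nat.find_le (by rw [List.take_length]; exact_mod_cast hN)
    rcases Nat.eq_zero_or_pos j with h0 | h0
    · rw [h0] at hj1
      simp [wordMat] at hj1
      omega
    · obtain ⟨i, hi⟩ : ∃ i, j = i + 1 := ⟨j - 1, by omega⟩
      have hmin := Nat.find_min hex (show i < Nat.find hex by omega)
      rw [not_le] at hmin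
      have hil : i < l.length := by omega
      rw [hi, ← List.take_append_getElem hil]
      refine (denom_append_le (hpos i) (hl _ (List.getElem_mem hil)).2).trans ?_
      nlinarith
  have hnear := abs_sub_prefix_le (hpos j)
    fun a ha => (hl a (List.mem_of_mem_drop (i := j) ha)).1
  rw [List.take_append_drop] at hnear
  obtain ⟨hP, -, -⟩ := first_column (hpos j)
  have hdet := det_wordMat (l.take j)
  rw [det_fin_two] at hdet
  generalize wordMat (l.take j) 0 0 = Q, wordMat (l.take j) 1 0 = P,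
    wordMat (l.take j) 0 1 = Q', wordMat (l.take j) 1 1 = P' at hj1 hle hnear hP hdet
  have hne : p * Q - P * q ≠ 0 := fun h0 => by
    have hcop : IsCoprime Q P := by
      rcases neg_one_pow_eq_or ℤ (l.take j).length with e | e <;> rw [e] at hdet
      · exact ⟨P', -Q', by linarith⟩
      · exact ⟨-P', Q', by linarith⟩
    have hdvd : Q ∣ (q : ℤ) := hcop.dvd_of_dvd_mul_left ⟨p, by linarith⟩
    have := Int.le_of_dvd (by exact_mod_cast hq) hdvd
    omega
  have hQ : (0 : ℝ) < Q := by exact_mod_cast (show (0 : ℤ) < Q by omega)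
  have h1 : 1 / ((q : ℝ) * Q) ≤ |(p : ℝ) / q - P / Q| := by
    rw [div_sub_div _ _ hqR.ne' hQ.ne', abs_div, abs_of_pos (mul_pos hqR hQ), mul_comm (q : ℝ) P]
    refine div_le_div_of_nonneg_right ?_ (mul_pos hqR hQ).le
    exact_mod_cast Int.one_le_abs hne
  have h3 : 3 * (q : ℝ) ≤ Q := by exact_mod_cast hj1
  have h4 : (Q : ℝ) ≤ 3 * ((B : ℝ) + 1) * q := by exact_mod_cast hle
  have h2 : 1 / (Q : ℝ) ^ 2 ≤ 1 / ((q : ℝ) * Q) / 3 := by
    rw [div_div, div_le_div_iff₀ (by positivity) (by positivity)]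
    nlinarith
  have h5 : 3 * (1 / (9 * ((B : ℝ) + 1)) / (q : ℝ) ^ 2) ≤ 1 / ((q : ℝ) * Q) := by
    rw [div_div, mul_one_div, div_le_div_iff₀ (by positivity) (by positivity)]
    nlinarith
  have htri : |(p : ℝ) / q - P / Q| ≤
      |x - p / q| + |x - (wordMat l 1 0 : ℝ) / wordMat l 0 0| +
        |(wordMat l 1 0 : ℝ) / wordMat l 0 0 - P / Q| := by
    have := abs_sub_le ((p : ℝ) / q) x ((wordMat l 1 0 : ℝ) / wordMat l 0 0)
    have := abs_sub_le ((p : ℝ) / q) ((wordMat l 1 0 : ℝ) / wordMat l 0 0) (P / Q)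
    have := abs_sub_comm ((p : ℝ) / q) x
    linarith
  linarith

/-- The middle and the last quotient of Shallit's words; the first is `b - 1`. -/
def fold (b : ℕ) : ℕ → List ℕ × ℕ
  | 0 => ([], b + 1)
  | k + 1 => ((fold b k).1 ++ [(fold b k).2 + 1, (fold b k).2 - 1] ++ (fold b k).1.reverse, b - 1)

/-- Shallit's words. -/
def word (b k : ℕ) : List ℕ := [b - 1] ++ (fold b k).1 ++ [(fold b k).2]

theorem fold_bounds {b : ℕ} (hb : 3 ≤ b) : ∀ k,
    (∀ a ∈ (fold b k).1, 1 ≤ a ∧ a ≤ b + 2) ∧ b - 1 ≤ (fold b k).2 ∧ (fold b k).2 ≤ b + 1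
  | 0 => ⟨by simp [fold], by simp [fold]; omega, by simp [fold]⟩
  | k + 1 => by
    obtain ⟨h1, h2, h3⟩ := fold_bounds hb k
    refine ⟨fun a ha => ?_, le_rfl, by simp [fold]; omega⟩
    simp only [fold, List.mem_append, List.mem_reverse, List.mem_cons, List.not_mem_nil,
      or_false] at ha
    rcases ha with (ha | rfl | rfl) | ha
    exacts [h1 a ha, by omega, by omega, h1 a ha]

theorem word_bounds {b : ℕ} (hb : 3 ≤ b) (k : ℕ) : ∀ a ∈ word b k, 1 ≤ a ∧ a ≤ b + 2 := by
  obtain ⟨h1, h2, h3⟩ := fold_bounds hb k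
  intro a ha
  simp only [word, List.mem_append, List.mem_singleton] at ha
  rcases ha with (rfl | ha) | rfl
  exacts [by omega, h1 a ha, by omega]

theorem fold_quot {a : ℕ} (ha : 1 ≤ a) :
    quotMat (a + 1) * quotMat (a - 1) = quotMat a * !![1, -1; 1, 0] * (quotMat a)ᵀ := by
  ext i j
  fin_cases i <;> fin_cases j <;>
    simp [quotMat, mul_apply, Fin.sum_univ_two, Nat.cast_sub ha] <;> ring

/-- **The folding identity.** -/
theorem wordMat_word_succ {b : ℕ} (hb : 3 ≤ b) (k : ℕ) :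
    wordMat (word b (k + 1)) =
      wordMat (word b k) * !![1, -1; 1, 0] * (wordMat (word b k))ᵀ := by
  have ha : 1 ≤ (fold b k).2 := by have := (fold_bounds hb k).2.1; omega
  have e : word b (k + 1) = ([b - 1] ++ (fold b k).1) ++ [(fold b k).2 + 1] ++
      [(fold b k).2 - 1] ++ ([b - 1] ++ (fold b k).1).reverse := by
    simp [word, fold]
  rw [e, wordMat_append, wordMat_append, wordMat_append, wordMat_singleton, wordMat_singleton,
    mul_assoc (wordMat _) (quotMat _) (quotMat _), fold_quot ha, ← transpose_wordMat,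
    word, wordMat_append ([b - 1] ++ _), wordMat_singleton, transpose_mul]
  simp only [mul_assoc]

theorem wordMat_word {b : ℕ} (hb : 3 ≤ b) : ∀ k,
    (wordMat (word b k)).det = 1 ∧ wordMat (word b k) 0 0 = (b : ℤ) ^ 2 ^ (k + 1) ∧
      (wordMat (word b k) 1 0 : ℝ) / (b : ℝ) ^ 2 ^ (k + 1) =
        ∑ i ∈ Finset.range (k + 2), ((b : ℝ) ^ 2 ^ i)⁻¹
  | 0 => by
    have e : wordMat (word b 0) = !![(b : ℤ) ^ 2, (b : ℤ) - 1; (b : ℤ) + 1, 1] := by
      simp only [word, fold, List.append_nil]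
      rw [wordMat_append, wordMat_singleton, wordMat_singleton]
      ext i j
      fin_cases i <;> fin_cases j <;>
        simp [quotMat, mul_apply, Fin.sum_univ_two, Nat.cast_sub (show 1 ≤ b by omega)]
      ring
    rw [e]
    refine ⟨by rw [det_fin_two_of]; ring, by simp, ?_⟩
    have : (b : ℝ) ≠ 0 := by positivity
    rw [Finset.sum_range_succ, Finset.sum_range_one]
    simp only [of_apply, cons_val', cons_val_zero, cons_val_one, cons_val_fin_one, empty_val']
    push_cast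
    field_simp
  | k + 1 => by
    obtain ⟨hdet, hq, hp⟩ := wordMat_word hb k
    rw [wordMat_word_succ hb]
    refine ⟨by rw [det_mul, det_mul, det_transpose, hdet, det_fin_two_of]; ring, ?_, ?_⟩
    · simp only [mul_apply, Fin.sum_univ_two, transpose_apply, of_apply, cons_val', cons_val_zero,
        cons_val_one, cons_val_fin_one, empty_val', hq]
      rw [pow_succ 2 (k + 1), pow_mul]
      ring
    · have h10 : (wordMat (word b k) * (!![1, -1; 1, 0] : Matrix (Fin 2) (Fin 2) ℤ) *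
          (wordMat (word b k))ᵀ) 1 0 =
          wordMat (word b k) 1 0 * wordMat (word b k) 0 0 + 1 := by
        rw [det_fin_two] at hdet
        simp only [mul_apply, Fin.sum_univ_two, transpose_apply, of_apply, cons_val',
          cons_val_zero, cons_val_one, cons_val_fin_one, empty_val']
        linear_combination hdet
      rw [h10, hq, Finset.sum_range_succ, ← hp, pow_succ 2 (k + 1), pow_mul]
      have : (b : ℝ) ^ 2 ^ (k + 1) ≠ 0 := by positivity
      push_cast
      field_simp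

theorem summable_kempner {b : ℕ} (hb : 2 ≤ b) :
    Summable fun i : ℕ => ((b : ℝ) ^ 2 ^ i)⁻¹ := by
  have hb' : (2 : ℝ) ≤ b := by exact_mod_cast hb
  refine Summable.of_nonneg_of_le (fun i => by positivity) (fun i => ?_)
    (summable_geometric_of_lt_one (show (0 : ℝ) ≤ 1 / 2 by norm_num) (by norm_num))
  rw [one_div, inv_pow]
  exact inv_anti₀ (by positivity) (le_trans (pow_le_pow_left₀ two_pos.le hb' i)
    (pow_le_pow_right₀ (by linarith) i.lt_two_pow_self.le))

/-- The sum of the first terms is near. -/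
theorem partial_bounds {b : ℕ} (hb : 2 ≤ b) (k : ℕ) :
    0 < (∑' i, ((b : ℝ) ^ 2 ^ i)⁻¹) - ∑ i ∈ Finset.range (k + 2), ((b : ℝ) ^ 2 ^ i)⁻¹ ∧
      (∑' i, ((b : ℝ) ^ 2 ^ i)⁻¹) - ∑ i ∈ Finset.range (k + 2), ((b : ℝ) ^ 2 ^ i)⁻¹ ≤
        2 / ((b : ℝ) ^ 2 ^ (k + 1)) ^ 2 := by
  have hs := summable_kempner hb
  have hs' := (summable_nat_add_iff (k + 2)).2 hs
  rw [← hs.sum_add_tsum_nat_add (k + 2), add_sub_cancel_left]
  have hb' : (2 : ℝ) ≤ b := by exact_mod_cast hb
  refine ⟨hs'.tsum_pos (fun i => by positivity) 0 (by positivity), ?_⟩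
  rw [div_eq_mul_inv, mul_comm, ← pow_mul, ← pow_succ]
  refine hasSum_le (fun i => ?_) hs'.hasSum
    ((hasSum_geometric_two).mul_left ((b : ℝ) ^ 2 ^ (k + 1 + 1))⁻¹)
  rw [one_div, inv_pow, ← mul_inv]
  refine inv_anti₀ (by positivity) (le_trans (mul_le_mul_of_nonneg_left
    (pow_le_pow_left₀ two_pos.le hb' i) (by positivity)) ?_)
  rw [← pow_add]
  refine pow_le_pow_right₀ (by linarith) ?_
  rw [show i + (k + 2) = (k + 1 + 1) + i by omega, pow_add 2 (k + 1 + 1) i]
  have h1 := i.lt_two_pow_self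
  have h2 := Nat.one_le_two_pow (n := k + 1 + 1)
  nlinarith

theorem badlyApproximable_kempner_of_three_le {b : ℕ} (hb : 3 ≤ b) (p : ℤ) {q : ℕ} (hq : 0 < q) :
    1 / (9 * ((b + 2 : ℕ) + 1 : ℝ)) / (q : ℝ) ^ 2 ≤
      |(∑' i, ((b : ℝ) ^ 2 ^ i)⁻¹) - p / q| := by
  refine badlyApproximable_of_words (fun N ε hε => ?_) p hq
  have hb' : (1 : ℝ) < b := by exact_mod_cast (by omega : 1 < b)
  obtain ⟨k, hk, hkN⟩ := (((tendsto_pow_atTop_atTop_of_one_lt hb').eventually_ge_atTop
    (2 / ε)).and (eventually_ge_atTop N)).exists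
  obtain ⟨-, hq', hp⟩ := wordMat_word hb k
  have hkk : k ≤ 2 ^ (k + 1) := (Nat.le_succ k).trans (Nat.lt_two_pow_self).le
  refine ⟨word b k, word_bounds hb k, ?_, ?_⟩
  · rw [hq']
    calc (N : ℤ) ≤ k := by exact_mod_cast hkN
      _ ≤ (b : ℤ) ^ k := by exact_mod_cast (Nat.lt_pow_self (by omega : 1 < b)).le
      _ ≤ _ := pow_le_pow_right₀ (by omega) hkk
  · rw [hq', Int.cast_pow, Int.cast_natCast, hp]
    obtain ⟨h1, h2⟩ := partial_bounds (by omega : 2 ≤ b) k
    rw [abs_of_pos h1]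
    refine h2.trans ((div_le_iff₀ (by positivity)).2 ?_)
    rw [div_le_iff₀ hε] at hk
    have h3 : (b : ℝ) ^ k ≤ ((b : ℝ) ^ 2 ^ (k + 1)) ^ 2 :=
      (pow_le_pow_right₀ hb'.le hkk).trans (le_self_pow₀ (one_le_pow₀ hb'.le) two_ne_zero)
    nlinarith

theorem tsum_two_eq :
    ∑' i, (((2 : ℕ) : ℝ) ^ 2 ^ i)⁻¹ = 1 / 2 + ∑' i, (((4 : ℕ) : ℝ) ^ 2 ^ i)⁻¹ := by
  rw [(summable_kempner le_rfl).tsum_eq_zero_add]
  congr 1
  · norm_num
  · refine tsum_congr fun i => ?_
    rw [pow_succ', pow_mul]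
    norm_num

/-- **Shallit's theorem.** -/
theorem badlyApproximable_kempner {b : ℕ} (hb : 2 ≤ b) :
    ∃ C : ℝ, 0 < C ∧ ∀ (p : ℤ) (q : ℕ), 0 < q →
      C / (q : ℝ) ^ 2 ≤ |(∑' i, ((b : ℝ) ^ 2 ^ i)⁻¹) - p / q| := by
  rcases hb.eq_or_lt with rfl | hb
  · refine ⟨1 / (9 * (((4 + 2 : ℕ) : ℝ) + 1)) / 4, by positivity, fun p q hq => ?_⟩
    have h := badlyApproximable_kempner_of_three_le (b := 4) (by norm_num) (2 * p - q)
      (q := 2 * q) (by omega)
    have hq' : (q : ℝ) ≠ 0 := Nat.cast_ne_zero.2 hq.ne'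
    have e : ((2 * p - (q : ℤ) : ℤ) : ℝ) / ((2 * q : ℕ) : ℝ) = (p : ℝ) / q - 1 / 2 := by
      push_cast
      field_simp
    rw [e] at h
    rw [tsum_two_eq]
    refine le_trans (le_of_eq ?_) (h.trans_eq (by congr 1; ring))
    push_cast
    ring
  · exact ⟨_, by positivity, fun p q hq => badlyApproximable_kempner_of_three_le hb p hq⟩

theorem irrational_kempner {b : ℕ} (hb : 2 ≤ b) : Irrational (∑' i, ((b : ℝ) ^ 2 ^ i)⁻¹) := by
  rintro ⟨r, hr⟩
  obtain ⟨C, hC, h⟩ := badlyApproximable_kempner hb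
  have hd : (0 : ℝ) < r.den := Nat.cast_pos.2 r.den_pos
  have h' := h r.num r.den r.den_pos
  rw [← hr, Rat.cast_def, sub_self, abs_zero] at h'
  exact h'.not_gt (by positivity)

theorem liouvilleWith_two_kempner {b : ℕ} (hb : 3 ≤ b) :
    LiouvilleWith 2 (∑' i, ((b : ℝ) ^ 2 ^ i)⁻¹) := by
  refine ⟨3, frequently_atTop.2 fun N => ?_⟩
  obtain ⟨-, -, hp⟩ := wordMat_word hb N
  obtain ⟨h1, h2⟩ := partial_bounds (by omega : 2 ≤ b) N
  refine ⟨b ^ 2 ^ (N + 1), ?_, wordMat (word b N) 1 0, ?_, ?_⟩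
  · exact (Nat.lt_pow_self (by omega : 1 < b)).le.trans
      (Nat.pow_le_pow_right (by omega) ((Nat.le_succ N).trans Nat.lt_two_pow_self.le))
  · rw [Nat.cast_pow, hp]
    intro e
    linarith
  · rw [Nat.cast_pow, hp, abs_of_pos h1, show (2 : ℝ) = ((2 : ℕ) : ℝ) by norm_num,
      Real.rpow_natCast]
    refine h2.trans_lt (div_lt_div_of_pos_right (by norm_num) ?_)
    positivity

/-- **The irrationality exponent is exactly two.** -/
theorem liouvilleWith_kempner_iff {b : ℕ} (hb : 2 ≤ b) (κ : ℝ) :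
    LiouvilleWith κ (∑' i, ((b : ℝ) ^ 2 ^ i)⁻¹) ↔ κ ≤ 2 := by
  refine ⟨fun h => not_lt.1 fun hκ => ?_, fun h => LiouvilleWith.mono ?_ h⟩
  · obtain ⟨C, hC, hbad⟩ := badlyApproximable_kempner hb
    obtain ⟨n, ⟨m, -, hlt⟩, hn, hnC⟩ :=
      ((h.frequently_lt_rpow_neg (show (2 + κ) / 2 < κ by linarith)).and_eventually
        ((eventually_gt_atTop 0).and (((tendsto_rpow_neg_atTop
          (show 0 < (κ - 2) / 2 by linarith)).comp
            tendsto_natCast_atTop_atTop).eventually_lt_const hC))).exists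
    have hnR : (0 : ℝ) < n := Nat.cast_pos.2 hn
    have h2 := (hbad m n hn).trans_lt hlt
    rw [show -((2 + κ) / 2) = -((κ - 2) / 2) + -((2 : ℕ) : ℝ) by push_cast; ring,
      Real.rpow_add hnR, Real.rpow_neg hnR.le ((2 : ℕ) : ℝ), Real.rpow_natCast,
      div_eq_mul_inv] at h2
    exact (lt_of_mul_lt_mul_right h2 (by positivity)).not_gt hnC
  · rcases hb.eq_or_lt with rfl | hb
    · rw [tsum_two_eq, show (1 : ℝ) / 2 = ((1 / 2 : ℚ) : ℝ) by norm_num, add_comm]
      exact (liouvilleWith_two_kempner (b := 4) (by norm_num)).add_rat _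
    · exact liouvilleWith_two_kempner hb

end FA.KempnerFraction

end
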